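import Fermat.Agent.LT.A2.H467.DataSpec

/-!
# Row LT, tower A2, station A2.03.1.1.06 `WX467.LocRepC` -- THE CUT (sub-architect helper54)

OFF-MAIN.  Definitions, frozen Props and the PROVED top `locRepC_of_leaves54`.
No holes, no opaque constant, nothing assumed.

THE LOCAL WEIL REPRESENTATION at a finite place, `k = K_v`, `Q(x, y) = x² + t x y + n y²`,
`B(ξ, y) = Q(ξ + y) - Q(ξ) - Q(y)`, `ψ` a nontrivial character of `k`, `μ` a Haar measure of `k`.

## The construction (everything is EXPLICIT, nothing is chosen by the leaves except `c`, `G`)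

* `ftL Φ ξ = ∫ Φ(y) ψ(B(ξ, y)) dy` (the Fourier transform of `LocAx.weyl`).
* `rOp h Φ` for `h = [[a, b], [c, d]]` (Bruhat formulas):
  `c = 0`:  `η(a) |a| ψ(a b Q(ξ)) Φ(a ξ)`;
  `c ≠ 0`:  `γ η(-c) |c|⁻¹ ∫ ψ((a Q(ξ) - B(ξ, y) + d Q(y)) / c) Φ(y) dy`.
* `lopL m Φ ξ = |det m|^{-1/2} Φ(m⁻¹ ξ)`.
* THE FAMILY: `Fof Φ g m = lopL m (rOp (d(det m)⁻¹ g) Φ)`, `d(a) = diag(1, a)`.

With this definition `LocAx.tor` is pure algebra, and `unip`, `diag`, `weyl` only need the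
LEFT rules `rOp (n(x) h) = ψ(x Q) · rOp h`, `rOp (t(a) h) = T_a (rOp h)`,
`rOp (w h) = γ FT (rOp h)` for `det h = 1`.  NO presentation of `SL₂`, NO induction on words,
NO multiplicativity `r(g g') = r(g) r(g')` is needed.  The left rule for `w` is, case by case
(`c = 0`; `c ≠ 0, a = 0`; `c ≠ 0, a ≠ 0`): the dilation `y ↦ a y`; Fourier inversion
`FT FT Φ = c Φ(-·)` with `γ² c = η(-1)`; THE GAUSS IDENTITY
`FT(ψ(a Q) · FT Φ)(ξ) = G(a) ∫ Φ(z) ψ(-Q(z + ξ) / a) dz` with `γ |a| G(a) = η(-a)`.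

## The certificates

* `FourierCert c G`: `FT` preserves Schwartz--Bruhat functions, inversion with the constant
  `c > 0`, change of variables for invertible matrices, the Gauss identity with `G`.
* `EtaCert c G γ η`: `η` is a character of order `≤ 2` of `k^×`, trivial on the norms,
  continuous, `γ² c = η(-1)`, `γ |a| G(a) = η(-a)`.
  Construction (`LeafEta`): `g(a) = |a| G(a)`, `γ = 1 / g(-1)`, `η(a) = γ g(-a)`;
  `g` is constant on the cosets of the norms (`LeafGaussNorm`), `g(a) g(-a) = c`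
  (`LeafGaussProd`), `g(a s)² = g(a)²` for a sum `s` of two norms (`LeafGaussSum`), the norms
  have index `≤ 2` (`LeafNormIndex`), and if there is a non-norm there is one which is a sum
  of two norms (`LeafNonNormSum`); continuity from `LeafSqOpen`.

## Leaves (registry rows A2.03.1.1.06.xx)

01 `LeafHaar`, 02 `LeafCov`, 03 `LeafFtSb`, 04 `LeafInv`, 05 `LeafGauss`, 06 `LeafGaussNorm`,
07 `LeafGaussProd`, 08 `LeafGaussSum`, 09 `LeafNormIndex`, 10 `LeafNonNormSum`,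
11 `LeafSqOpen`, 12 `LeafEta`, 13 `LeafBorelOp`, 14 `LeafWeylOp`, 15 `LeafRopSb`,
16 `LeafAxUnip`, 17 `LeafAxDiag`, 18 `LeafAxWeyl`, 19 `LeafAxTor`, 20 `LeafAxReg`.
-/

set_option autoImplicit false

open IsDedekindDomain NumberField MeasureTheory
open scoped Topology

noncomputable section

namespace Fermat.Agent.LT.A2.LF54

open Fermat.Agent.LT.A2 Fermat.Agent.LT.A2.WX467

/-! ## 1. Vocabulary -/

section Vocab

variable {k : Type} [NormedField k]

/-- Schwartz--Bruhat functions on `k²`: locally constant with compact support. -/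
def IsSB (Φ : k × k → ℂ) : Prop := IsLocallyConstant Φ ∧ HasCompactSupport Φ

/-- The Fourier transform of `LocAx.weyl`: `ftL Φ ξ = ∫ Φ(y) ψ(B(ξ, y)) dy`. -/
def ftL (t n : k) (ψ : k → ℂ) (μ : @Measure k (borel k)) (Φ : k × k → ℂ) (ξ : k × k) : ℂ :=
  intL μ fun y => Φ y * ψ (bfL t n ξ y)

/-- `a` is a value of the norm form `Q`. -/
def IsNormL (t n a : k) : Prop := ∃ x y : k, qfL t n (x, y) = a

open scoped Classical in
/-- **The Bruhat formulas** of the Weil representation, `h = [[a, b], [c, d]]`. -/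
def rOp (t n : k) (ψ : k → ℂ) (μ : @Measure k (borel k)) (γ : ℂ) (η : k → ℂ)
    (h : Matrix (Fin 2) (Fin 2) k) (Φ : k × k → ℂ) (ξ : k × k) : ℂ :=
  if h 1 0 = 0 then
    η (h 0 0) * ((‖h 0 0‖ : ℝ) : ℂ) * ψ (h 0 0 * h 0 1 * qfL t n ξ) * Φ (h 0 0 • ξ)
  else
    γ * η (-(h 1 0)) * ((‖h 1 0‖⁻¹ : ℝ) : ℂ) *
      intL μ fun y =>
        ψ ((h 0 0 * qfL t n ξ - bfL t n ξ y + h 1 1 * qfL t n y) / h 1 0) * Φ y

/-- The action of the torus: `lopL m Φ ξ = |det m|^{-1/2} Φ(m⁻¹ ξ)`. -/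
def lopL (m : Matrix (Fin 2) (Fin 2) k) (Φ : k × k → ℂ) (ξ : k × k) : ℂ :=
  (((Real.sqrt ‖m.det‖)⁻¹ : ℝ) : ℂ) * Φ (actL m⁻¹ ξ)

/-- **THE FAMILY** with initial vector `Φ`: `Fof Φ g m = L(m) r(d(det m)⁻¹ g) Φ`. -/
def Fof (t n : k) (ψ : k → ℂ) (μ : @Measure k (borel k)) (γ : ℂ) (η : k → ℂ)
    (Φ : k × k → ℂ) (g m : Matrix (Fin 2) (Fin 2) k) : k × k → ℂ :=
  lopL m (rOp t n ψ μ γ η (!![1, 0; 0, (m.det)⁻¹] * g) Φ)

/-- The standing hypotheses: nonzero discriminant, `ψ` a nontrivial continuous unitary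
character, `μ` a Haar measure. -/
structure Ctx (t n : k) (ψ : k → ℂ) (μ : @Measure k (borel k)) : Prop where
  disc : t ^ 2 - 4 * n ≠ 0
  char : IsCharL ψ
  haar : IsHaarL μ

/-- `FT` preserves Schwartz--Bruhat functions. -/
def FtSbP (t n : k) (ψ : k → ℂ) (μ : @Measure k (borel k)) : Prop :=
  ∀ Φ : k × k → ℂ, IsSB Φ → IsSB (ftL t n ψ μ Φ)

/-- Fourier inversion with the constant `c`. -/
def InvP (t n : k) (ψ : k → ℂ) (μ : @Measure k (borel k)) (c : ℝ) : Prop :=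
  ∀ Φ : k × k → ℂ, IsSB Φ → ∀ ξ : k × k,
    ftL t n ψ μ (ftL t n ψ μ Φ) ξ = (c : ℂ) * Φ (-ξ)

/-- Change of variables for an invertible matrix: `∫ f(m y) dy = |det m|⁻¹ ∫ f(y) dy`. -/
def CovP (μ : @Measure k (borel k)) : Prop :=
  ∀ m : Matrix (Fin 2) (Fin 2) k, m.det ≠ 0 → ∀ f : k × k → ℂ, IsSB f →
    intL μ (fun y => f (actL m y)) = ((‖m.det‖⁻¹ : ℝ) : ℂ) * intL μ f

/-- **The Gauss identity** with the function `G`:
`FT(ψ(a Q) · FT Φ)(ξ) = G(a) ∫ Φ(z) ψ(-Q(z + ξ) / a) dz`. -/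
def GaussP (t n : k) (ψ : k → ℂ) (μ : @Measure k (borel k)) (G : k → ℂ) : Prop :=
  ∀ a : k, a ≠ 0 → ∀ Φ : k × k → ℂ, IsSB Φ → ∀ ξ : k × k,
    ftL t n ψ μ (fun y => ψ (a * qfL t n y) * ftL t n ψ μ Φ y) ξ
      = G a * intL μ fun z => Φ z * ψ (-(qfL t n (z + ξ)) / a)

/-- **The Fourier certificate.** -/
structure FourierCert (t n : k) (ψ : k → ℂ) (μ : @Measure k (borel k)) (c : ℝ) (G : k → ℂ) :
    Prop where
  c_pos : 0 < c
  ft_sb : FtSbP t n ψ μ
  inv : InvP t n ψ μ c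
  cov : CovP μ
  gauss : GaussP t n ψ μ G

/-- `‖N‖ G(a N) = G(a)` for the nonzero values `N` of the norm form. -/
def GaussNormP (t n : k) (G : k → ℂ) : Prop :=
  ∀ a : k, a ≠ 0 → ∀ x y : k, qfL t n (x, y) ≠ 0 →
    ((‖qfL t n (x, y)‖ : ℝ) : ℂ) * G (a * qfL t n (x, y)) = G a

/-- `‖a‖² G(a) G(-a) = c`. -/
def GaussProdP (c : ℝ) (G : k → ℂ) : Prop :=
  ∀ a : k, a ≠ 0 → ((‖a‖ ^ 2 : ℝ) : ℂ) * (G a * G (-a)) = (c : ℂ)

/-- `(‖s‖ G(a s))² = G(a)²` for a nonzero sum `s` of two values of the norm form. -/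
def GaussSumP (t n : k) (G : k → ℂ) : Prop :=
  ∀ a : k, a ≠ 0 → ∀ x₁ y₁ x₂ y₂ : k, qfL t n (x₁, y₁) + qfL t n (x₂, y₂) ≠ 0 →
    (((‖qfL t n (x₁, y₁) + qfL t n (x₂, y₂)‖ : ℝ) : ℂ)
        * G (a * (qfL t n (x₁, y₁) + qfL t n (x₂, y₂)))) ^ 2 = G a ^ 2

/-- The values of the norm form have index `≤ 2` in `k^×`. -/
def NormIndexP (t n : k) : Prop :=
  ∀ a b : k, a ≠ 0 → b ≠ 0 → ¬ IsNormL t n a → ¬ IsNormL t n b → IsNormL t n (a * b)

/-- If there is a non-norm, there is one which is a sum of two norms. -/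
def NonNormSumP (t n : k) : Prop :=
  (∃ a : k, a ≠ 0 ∧ ¬ IsNormL t n a) →
    ∃ x₁ y₁ x₂ y₂ : k, qfL t n (x₁, y₁) + qfL t n (x₂, y₂) ≠ 0 ∧
      ¬ IsNormL t n (qfL t n (x₁, y₁) + qfL t n (x₂, y₂))

/-- The squares contain a neighbourhood of `1`. -/
def SqOpenP (k : Type) [NormedField k] : Prop :=
  ∃ ε : ℝ, 0 < ε ∧ ∀ x : k, ‖x - 1‖ < ε → ∃ y : k, y ^ 2 = x

/-- **The certificate of `(γ, η)`.**  The first four fields are those of `LocAx`, VERBATIM. -/
structure EtaCert (t n : k) (c : ℝ) (G : k → ℂ) (γ : ℂ) (η : k → ℂ) : Prop where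
  eta_mul : ∀ a b : k, a ≠ 0 → b ≠ 0 → η (a * b) = η a * η b
  eta_sq : ∀ a : k, a ≠ 0 → η a = 1 ∨ η a = -1
  eta_norm : ∀ μ' : Matrix (Fin 2) (Fin 2) k, InTorL t n μ' → μ'.det ≠ 0 → η μ'.det = 1
  eta_cont : ContinuousOn η {a | a ≠ 0}
  w2 : γ ^ 2 * (c : ℂ) = η (-1)
  gauss_eta : ∀ a : k, a ≠ 0 → γ * ((‖a‖ : ℝ) : ℂ) * G a = η (-a)

/-- The LEFT rules of the upper triangular group, and `rOp 1 = id`. -/
structure BorelOpP (t n : k) (ψ : k → ℂ) (μ : @Measure k (borel k)) (γ : ℂ) (η : k → ℂ) :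
    Prop where
  one : ∀ Φ : k × k → ℂ, IsSB Φ → rOp t n ψ μ γ η 1 Φ = Φ
  unip : ∀ (x : k) (h : Matrix (Fin 2) (Fin 2) k), h.det = 1 → ∀ Φ : k × k → ℂ, IsSB Φ →
    ∀ ξ : k × k, rOp t n ψ μ γ η (!![1, x; 0, 1] * h) Φ ξ
      = ψ (x * qfL t n ξ) * rOp t n ψ μ γ η h Φ ξ
  diag : ∀ a : k, a ≠ 0 → ∀ h : Matrix (Fin 2) (Fin 2) k, h.det = 1 →
    ∀ Φ : k × k → ℂ, IsSB Φ → ∀ ξ : k × k,
      rOp t n ψ μ γ η (!![a, 0; 0, a⁻¹] * h) Φ ξ
        = η a * ((‖a‖ : ℝ) : ℂ) * rOp t n ψ μ γ η h Φ (a • ξ)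

/-- The LEFT rule of the Weyl element. -/
def WeylOpP (t n : k) (ψ : k → ℂ) (μ : @Measure k (borel k)) (γ : ℂ) (η : k → ℂ) : Prop :=
  ∀ h : Matrix (Fin 2) (Fin 2) k, h.det = 1 → ∀ Φ : k × k → ℂ, IsSB Φ → ∀ ξ : k × k,
    rOp t n ψ μ γ η (!![0, 1; -1, 0] * h) Φ ξ = γ * ftL t n ψ μ (rOp t n ψ μ γ η h Φ) ξ

/-- `rOp h` preserves Schwartz--Bruhat functions. -/
def RopSbP (t n : k) (ψ : k → ℂ) (μ : @Measure k (borel k)) (γ : ℂ) (η : k → ℂ) : Prop :=
  ∀ h : Matrix (Fin 2) (Fin 2) k, h.det = 1 → ∀ Φ : k × k → ℂ, IsSB Φ →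
    IsSB (rOp t n ψ μ γ η h Φ)

/-- The field `unip` of `LocAx` for a family `F`. -/
def AxUnipP (t n : k) (ψ : k → ℂ)
    (F : Matrix (Fin 2) (Fin 2) k → Matrix (Fin 2) (Fin 2) k → k × k → ℂ) : Prop :=
  ∀ (x : k) (g m : Matrix (Fin 2) (Fin 2) k) (ξ : k × k), AdmL t n g m →
    F (!![1, x; 0, 1] * g) m ξ = ψ (x * qfL t n ξ) * F g m ξ

/-- The field `weyl` of `LocAx` for a family `F`. -/
def AxWeylP (t n : k) (ψ : k → ℂ) (μ : @Measure k (borel k)) (γ : ℂ)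
    (F : Matrix (Fin 2) (Fin 2) k → Matrix (Fin 2) (Fin 2) k → k × k → ℂ) : Prop :=
  ∀ (g m : Matrix (Fin 2) (Fin 2) k) (ξ : k × k), AdmL t n g m →
    F (!![0, 1; -1, 0] * g) m ξ = γ * intL μ fun y => F g m y * ψ (bfL t n ξ y)

/-- The field `diag` of `LocAx` for a family `F` (module `‖·‖`). -/
def AxDiagP (t n : k) (η : k → ℂ)
    (F : Matrix (Fin 2) (Fin 2) k → Matrix (Fin 2) (Fin 2) k → k × k → ℂ) : Prop :=
  ∀ a : k, a ≠ 0 → ∀ (g m : Matrix (Fin 2) (Fin 2) k) (ξ : k × k), AdmL t n g m →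
    F (!![a, 0; 0, a⁻¹] * g) m ξ = η a * ((‖a‖ : ℝ) : ℂ) * F g m (a • ξ)

/-- The field `tor` of `LocAx` for a family `F` (module `‖·‖`). -/
def AxTorP (t n : k)
    (F : Matrix (Fin 2) (Fin 2) k → Matrix (Fin 2) (Fin 2) k → k × k → ℂ) : Prop :=
  ∀ μ' : Matrix (Fin 2) (Fin 2) k, InTorL t n μ' → μ'.det ≠ 0 →
    ∀ (g m : Matrix (Fin 2) (Fin 2) k) (ξ : k × k), AdmL t n g m →
      ((Real.sqrt ‖μ'.det‖ : ℝ) : ℂ) * F (!![1, 0; 0, μ'.det] * g) (μ' * m) ξ
        = F g m (actL μ'⁻¹ ξ)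

/-- Regularity of a family: Schwartz--Bruhat members (hence continuous and integrable). -/
structure AxRegP (t n : k) (μ : @Measure k (borel k))
    (F : Matrix (Fin 2) (Fin 2) k → Matrix (Fin 2) (Fin 2) k → k × k → ℂ) : Prop where
  sb : ∀ g m : Matrix (Fin 2) (Fin 2) k, AdmL t n g m →
    IsLocallyConstant (F g m) ∧ HasCompactSupport (F g m)
  cont : ∀ g m : Matrix (Fin 2) (Fin 2) k, AdmL t n g m → Continuous (F g m)
  integrable : ∀ g m : Matrix (Fin 2) (Fin 2) k, AdmL t n g m → IntegrableL μ (F g m)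

end Vocab

/-! ## 2. The leaves

Every leaf is a statement about `k = v.adicCompletion K`, `K` a number field, `v` a finite place,
with ARBITRARY `t n : k` (not only the images of elements of `K`). -/

section Leaves

/-- **01 HAAR.**  There is a Haar measure on `K_v` (Borel σ-algebra).
`K_v` is locally compact (tower T1, `LocCompC` of helper11); Mathlib `addHaar`. -/
def LeafHaar : Prop :=
  ∀ (K : Type) [Field K] [NumberField K] (v : HeightOneSpectrum (𝓞 K)),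
    ∃ μ : @Measure (v.adicCompletion K) (borel (v.adicCompletion K)), IsHaarL μ

/-- **02 COV.**  Change of variables on `K_v²` for an invertible matrix, module `‖det m‖`:
shears (Fubini and invariance), the swap, diagonal matrices (`μ(a S) = ‖a‖ μ(S)`:
`[𝒪_v : a 𝒪_v] = ‖a‖⁻¹`). -/
def LeafCov : Prop :=
  ∀ (K : Type) [Field K] [NumberField K] (v : HeightOneSpectrum (𝓞 K))
    (μ : @Measure (v.adicCompletion K) (borel (v.adicCompletion K))), IsHaarL μ → CovP μ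

/-- **03 FT-SB.**  The Fourier transform of a Schwartz--Bruhat function is Schwartz--Bruhat:
for the indicator function of `y₀ + Λ`, `FT = ψ(B(·, y₀)) μ(Λ) 1_{Λ^⊥}`, and `Λ^⊥` is a
lattice because `ψ` is nontrivial and `B` is nondegenerate. -/
def LeafFtSb : Prop :=
  ∀ (K : Type) [Field K] [NumberField K] (v : HeightOneSpectrum (𝓞 K))
    (t n : v.adicCompletion K) (ψ : v.adicCompletion K → ℂ)
    (μ : @Measure (v.adicCompletion K) (borel (v.adicCompletion K))),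
    Ctx t n ψ μ → FtSbP t n ψ μ

/-- **04 INV.**  Fourier inversion on `S(K_v²)`: `FT FT Φ = c Φ(-·)`, `c = μ(Λ) μ(Λ^⊥) > 0`. -/
def LeafInv : Prop :=
  ∀ (K : Type) [Field K] [NumberField K] (v : HeightOneSpectrum (𝓞 K))
    (t n : v.adicCompletion K) (ψ : v.adicCompletion K → ℂ)
    (μ : @Measure (v.adicCompletion K) (borel (v.adicCompletion K))),
    Ctx t n ψ μ → ∃ c : ℝ, 0 < c ∧ InvP t n ψ μ c

/-- **05 GAUSS (Weil 1964, § 14, th. 2).**  The Gauss identity, with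
`G(a) = ∫_{Λ} ψ(a Q(y)) dy` for every large lattice `Λ`: cut the outer integral at a large
lattice, Fubini, complete the square `a Q(y) + B(y, u) = a Q(y + u / a) - Q(u) / a`. -/
def LeafGauss : Prop :=
  ∀ (K : Type) [Field K] [NumberField K] (v : HeightOneSpectrum (𝓞 K))
    (t n : v.adicCompletion K) (ψ : v.adicCompletion K → ℂ)
    (μ : @Measure (v.adicCompletion K) (borel (v.adicCompletion K))),
    Ctx t n ψ μ → ∃ G : v.adicCompletion K → ℂ, GaussP t n ψ μ G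

/-- **06 GAUSS-NORM.**  `‖N‖ G(a N) = G(a)`: the Gauss identity for `Φ ∘ m`, `m` the
multiplication by `x + y ω` (`Q(m ξ) = N Q(ξ)`, `B(m ξ, y) = B(ξ, m̄ y)`, `CovP`). -/
def LeafGaussNorm : Prop :=
  ∀ (K : Type) [Field K] [NumberField K] (v : HeightOneSpectrum (𝓞 K))
    (t n : v.adicCompletion K) (ψ : v.adicCompletion K → ℂ)
    (μ : @Measure (v.adicCompletion K) (borel (v.adicCompletion K))) (c : ℝ)
    (G : v.adicCompletion K → ℂ),
    Ctx t n ψ μ → FourierCert t n ψ μ c G → GaussNormP t n G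

/-- **07 GAUSS-PROD.**  `‖a‖² G(a) G(-a) = c`: with `X_a = FT M_a FT`,
`X_a X_{-a} = c²` by inversion and `X_a X_{-a} = c ‖a‖² G(a) G(-a)` by the Gauss identity. -/
def LeafGaussProd : Prop :=
  ∀ (K : Type) [Field K] [NumberField K] (v : HeightOneSpectrum (𝓞 K))
    (t n : v.adicCompletion K) (ψ : v.adicCompletion K → ℂ)
    (μ : @Measure (v.adicCompletion K) (borel (v.adicCompletion K))) (c : ℝ)
    (G : v.adicCompletion K → ℂ),
    Ctx t n ψ μ → FourierCert t n ψ μ c G → GaussProdP c G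

/-- **08 GAUSS-SUM.**  `(‖s‖ G(a s))² = G(a)²` for `s = N(x) + N(y) ≠ 0`: the Gauss identity on
`k⁴` for `Q ⊕ Q` (constant `G(a)²`, products of Schwartz--Bruhat functions span) and the
similitude `A(u, v) = (x u - ȳ v, y u + x̄ v)` of `Q ⊕ Q` with multiplier `s`, `|det A| = ‖s‖²`. -/
def LeafGaussSum : Prop :=
  ∀ (K : Type) [Field K] [NumberField K] (v : HeightOneSpectrum (𝓞 K))
    (t n : v.adicCompletion K) (ψ : v.adicCompletion K → ℂ)
    (μ : @Measure (v.adicCompletion K) (borel (v.adicCompletion K))) (c : ℝ)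
    (G : v.adicCompletion K → ℂ),
    Ctx t n ψ μ → FourierCert t n ψ μ c G → GaussSumP t n G

/-- **09 NORM-INDEX (STATION).**  The nonzero values of a binary form with nonzero discriminant
over `K_v` form a subgroup of index `≤ 2` of `K_v^×` (`v` dyadic included).  Local norm index
of a quadratic extension: Hilbert 90 (`N m = 1`, `m ≠ -1` ⟹ `m = (1 + m) / (1 + m)‾`) and the
index of the squares in `k^×` and `E^×`, or the Herbrand quotient of `E^×`. -/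
def LeafNormIndex : Prop :=
  ∀ (K : Type) [Field K] [NumberField K] (v : HeightOneSpectrum (𝓞 K))
    (t n : v.adicCompletion K), t ^ 2 - 4 * n ≠ 0 → NormIndexP t n

/-- **10 NON-NORM-SUM.**  If the norms are not everything, some sum of two norms is a nonzero
non-norm: otherwise `N ∪ {0}` is closed under addition, contains `1`, hence `-1` (it is closed
in `k` and `pʲ - 1 → -1`), and all squares, hence `2 x = (x + 1)² - x² - 1`. -/
def LeafNonNormSum : Prop :=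
  ∀ (K : Type) [Field K] [NumberField K] (v : HeightOneSpectrum (𝓞 K))
    (t n : v.adicCompletion K), t ^ 2 - 4 * n ≠ 0 → NonNormSumP t n

/-- **11 SQ-OPEN.**  The squares of `K_v` contain a neighbourhood of `1` (Hensel, or the
binomial series; `‖x - 1‖ < ‖4‖`). -/
def LeafSqOpen : Prop :=
  ∀ (K : Type) [Field K] [NumberField K] (v : HeightOneSpectrum (𝓞 K)),
    SqOpenP (v.adicCompletion K)

/-- **12 ETA.**  The constant `γ` and the character `η` (see the header). -/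
def LeafEta : Prop :=
  ∀ (K : Type) [Field K] [NumberField K] (v : HeightOneSpectrum (𝓞 K))
    (t n : v.adicCompletion K) (ψ : v.adicCompletion K → ℂ)
    (μ : @Measure (v.adicCompletion K) (borel (v.adicCompletion K))) (c : ℝ)
    (G : v.adicCompletion K → ℂ),
    Ctx t n ψ μ → FourierCert t n ψ μ c G → GaussNormP t n G → GaussProdP c G →
    GaussSumP t n G → NormIndexP t n → NonNormSumP t n → SqOpenP (v.adicCompletion K) →
    ∃ (γ : ℂ) (η : v.adicCompletion K → ℂ), EtaCert t n c G γ η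

/-- **13 BOREL-OP.**  The left rules of `n(x)`, `t(a)` and `rOp 1 = id`: algebra on the Bruhat
formulas (`η` multiplicative, `η(a⁻¹) = η(a)`, `Q(a ξ) = a² Q(ξ)`). -/
def LeafBorelOp : Prop :=
  ∀ (K : Type) [Field K] [NumberField K] (v : HeightOneSpectrum (𝓞 K))
    (t n : v.adicCompletion K) (ψ : v.adicCompletion K → ℂ)
    (μ : @Measure (v.adicCompletion K) (borel (v.adicCompletion K))) (c : ℝ)
    (G : v.adicCompletion K → ℂ) (γ : ℂ) (η : v.adicCompletion K → ℂ),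
    Ctx t n ψ μ → EtaCert t n c G γ η → BorelOpP t n ψ μ γ η

/-- **14 WEYL-OP.**  The left rule of `w` (three cases, see the header). -/
def LeafWeylOp : Prop :=
  ∀ (K : Type) [Field K] [NumberField K] (v : HeightOneSpectrum (𝓞 K))
    (t n : v.adicCompletion K) (ψ : v.adicCompletion K → ℂ)
    (μ : @Measure (v.adicCompletion K) (borel (v.adicCompletion K))) (c : ℝ)
    (G : v.adicCompletion K → ℂ) (γ : ℂ) (η : v.adicCompletion K → ℂ),
    Ctx t n ψ μ → FourierCert t n ψ μ c G → EtaCert t n c G γ η → WeylOpP t n ψ μ γ η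

/-- **15 ROP-SB.**  `rOp h Φ` is Schwartz--Bruhat: `ψ ∘ Q` is locally constant, `FtSbP`. -/
def LeafRopSb : Prop :=
  ∀ (K : Type) [Field K] [NumberField K] (v : HeightOneSpectrum (𝓞 K))
    (t n : v.adicCompletion K) (ψ : v.adicCompletion K → ℂ)
    (μ : @Measure (v.adicCompletion K) (borel (v.adicCompletion K))) (γ : ℂ)
    (η : v.adicCompletion K → ℂ),
    Ctx t n ψ μ → FtSbP t n ψ μ → RopSbP t n ψ μ γ η

/-- **16 AX-UNIP.**  `d(δ)⁻¹ n(x) = n(x δ) d(δ)⁻¹` and `Q(m⁻¹ ξ) = Q(ξ) / det m`. -/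
def LeafAxUnip : Prop :=
  ∀ (K : Type) [Field K] [NumberField K] (v : HeightOneSpectrum (𝓞 K))
    (t n : v.adicCompletion K) (ψ : v.adicCompletion K → ℂ)
    (μ : @Measure (v.adicCompletion K) (borel (v.adicCompletion K))) (γ : ℂ)
    (η : v.adicCompletion K → ℂ),
    Ctx t n ψ μ → BorelOpP t n ψ μ γ η →
    ∀ Φ : v.adicCompletion K × v.adicCompletion K → ℂ, IsSB Φ →
      AxUnipP t n ψ (Fof t n ψ μ γ η Φ)

/-- **17 AX-DIAG.**  `d(δ)⁻¹ t(a) = t(a) d(δ)⁻¹`. -/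
def LeafAxDiag : Prop :=
  ∀ (K : Type) [Field K] [NumberField K] (v : HeightOneSpectrum (𝓞 K))
    (t n : v.adicCompletion K) (ψ : v.adicCompletion K → ℂ)
    (μ : @Measure (v.adicCompletion K) (borel (v.adicCompletion K))) (γ : ℂ)
    (η : v.adicCompletion K → ℂ),
    Ctx t n ψ μ → BorelOpP t n ψ μ γ η →
    ∀ Φ : v.adicCompletion K × v.adicCompletion K → ℂ, IsSB Φ →
      AxDiagP t n η (Fof t n ψ μ γ η Φ)

/-- **18 AX-WEYL.**  `d(δ)⁻¹ w = t(δ) w d(δ)⁻¹`, `δ = det m`; `FT (L(m) f) = η(δ) L(m) T_δ FT f`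
(`CovP` for `m`, `B(ξ, m z) = B(δ m⁻¹ ξ, z)`), `η(δ) = 1`. -/
def LeafAxWeyl : Prop :=
  ∀ (K : Type) [Field K] [NumberField K] (v : HeightOneSpectrum (𝓞 K))
    (t n : v.adicCompletion K) (ψ : v.adicCompletion K → ℂ)
    (μ : @Measure (v.adicCompletion K) (borel (v.adicCompletion K))) (c : ℝ)
    (G : v.adicCompletion K → ℂ) (γ : ℂ) (η : v.adicCompletion K → ℂ),
    Ctx t n ψ μ → CovP μ → EtaCert t n c G γ η → BorelOpP t n ψ μ γ η →
    WeylOpP t n ψ μ γ η → RopSbP t n ψ μ γ η →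
    ∀ Φ : v.adicCompletion K × v.adicCompletion K → ℂ, IsSB Φ →
      AxWeylP t n ψ μ γ (Fof t n ψ μ γ η Φ)

/-- **19 AX-TOR.**  Pure algebra: `d((α δ)⁻¹) d(α) = d(δ⁻¹)`, `(μ' m)⁻¹ = m⁻¹ μ'⁻¹`. -/
def LeafAxTor : Prop :=
  ∀ (K : Type) [Field K] [NumberField K] (v : HeightOneSpectrum (𝓞 K))
    (t n : v.adicCompletion K) (ψ : v.adicCompletion K → ℂ)
    (μ : @Measure (v.adicCompletion K) (borel (v.adicCompletion K))) (γ : ℂ)
    (η : v.adicCompletion K → ℂ)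
    (Φ : v.adicCompletion K × v.adicCompletion K → ℂ),
    AxTorP t n (Fof t n ψ μ γ η Φ)

/-- **20 AX-REG.**  The members of the family are Schwartz--Bruhat, continuous, integrable. -/
def LeafAxReg : Prop :=
  ∀ (K : Type) [Field K] [NumberField K] (v : HeightOneSpectrum (𝓞 K))
    (t n : v.adicCompletion K) (ψ : v.adicCompletion K → ℂ)
    (μ : @Measure (v.adicCompletion K) (borel (v.adicCompletion K))) (γ : ℂ)
    (η : v.adicCompletion K → ℂ),
    Ctx t n ψ μ → RopSbP t n ψ μ γ η →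
    ∀ Φ : v.adicCompletion K × v.adicCompletion K → ℂ, IsSB Φ →
      AxRegP t n μ (Fof t n ψ μ γ η Φ)

/-- **The leaves of the station.** -/
structure Leaves : Prop where
  haar : LeafHaar
  cov : LeafCov
  ftSb : LeafFtSb
  inv : LeafInv
  gauss : LeafGauss
  gaussNorm : LeafGaussNorm
  gaussProd : LeafGaussProd
  gaussSum : LeafGaussSum
  normIndex : LeafNormIndex
  nonNormSum : LeafNonNormSum
  sqOpen : LeafSqOpen
  eta : LeafEta
  borelOp : LeafBorelOp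
  weylOp : LeafWeylOp
  ropSb : LeafRopSb
  axUnip : LeafAxUnip
  axDiag : LeafAxDiag
  axWeyl : LeafAxWeyl
  axTor : LeafAxTor
  axReg : LeafAxReg

end Leaves

/-! ## 3. The top (PROVED) -/

section Top

variable {k : Type} [NormedField k]

/-- `Fof Φ 1 1 = Φ` from `rOp 1 = id`. -/
theorem fof_one_one54 (t n : k) (ψ : k → ℂ) (μ : @Measure k (borel k)) (γ : ℂ) (η : k → ℂ)
    (hB : BorelOpP t n ψ μ γ η) (Φ : k × k → ℂ) (hΦ : IsSB Φ) :
    Fof t n ψ μ γ η Φ 1 1 = Φ := by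
  have h1 : (!![1, 0; 0, ((1 : Matrix (Fin 2) (Fin 2) k).det)⁻¹] * (1 : Matrix (Fin 2) (Fin 2) k))
      = 1 := by
    rw [Matrix.det_one, inv_one, mul_one]
    exact Matrix.one_fin_two.symm
  funext ξ
  unfold Fof lopL
  rw [h1, hB.one Φ hΦ]
  simp [actL, Matrix.det_one]

/-- The local axioms of the family `Fof Φ` from the certificates. -/
theorem locAx_of_parts54 (t n : k) (ψ : k → ℂ) (μ : @Measure k (borel k)) (c : ℝ) (G : k → ℂ)
    (γ : ℂ) (η : k → ℂ) (hctx : Ctx t n ψ μ) (hE : EtaCert t n c G γ η)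
    (F : Matrix (Fin 2) (Fin 2) k → Matrix (Fin 2) (Fin 2) k → k × k → ℂ)
    (hU : AxUnipP t n ψ F) (hW : AxWeylP t n ψ μ γ F) (hD : AxDiagP t n η F)
    (hT : AxTorP t n F) (hR : AxRegP t n μ F) :
    LocAx (fun x => ‖x‖) t n ψ μ γ η F where
  unip := hU
  weyl := hW
  diag := hD
  tor := hT
  eta_mul := hE.eta_mul
  eta_sq := hE.eta_sq
  eta_norm := hE.eta_norm
  eta_cont := hE.eta_cont
  haar := hctx.haar
  psi_char := ⟨hctx.char.1, hctx.char.2.1, hctx.char.2.2.1⟩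
  cont := hR.cont
  integrable := hR.integrable

end Top

/-- **The top of the station**: `WX467.LocRepC` from the leaves. -/
theorem locRepC_of_leaves54 (L : Leaves) : WX467.LocRepC := by
  intro K _ _ v t n ψv hd hψ
  obtain ⟨μ, hμ⟩ := L.haar K v
  have hd' : (algebraMap K (v.adicCompletion K) t) ^ 2
      - 4 * (algebraMap K (v.adicCompletion K) n) ≠ 0 := by
    intro h
    apply hd
    have hinj : Function.Injective (algebraMap K (v.adicCompletion K)) :=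
      (algebraMap K (v.adicCompletion K)).injective
    apply hinj
    rw [map_sub, map_pow, map_mul, map_ofNat, map_zero]
    exact h
  have hctx : Ctx (algebraMap K (v.adicCompletion K) t) (algebraMap K (v.adicCompletion K) n)
      ψv μ := ⟨hd', hψ, hμ⟩
  obtain ⟨c, hc, hinv⟩ := L.inv K v _ _ ψv μ hctx
  obtain ⟨G, hG⟩ := L.gauss K v _ _ ψv μ hctx
  have hsb := L.ftSb K v _ _ ψv μ hctx
  have hcov := L.cov K v μ hμ
  have hF : FourierCert (algebraMap K (v.adicCompletion K) t)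
      (algebraMap K (v.adicCompletion K) n) ψv μ c G := ⟨hc, hsb, hinv, hcov, hG⟩
  obtain ⟨γ, η, hE⟩ := L.eta K v _ _ ψv μ c G hctx hF
    (L.gaussNorm K v _ _ ψv μ c G hctx hF) (L.gaussProd K v _ _ ψv μ c G hctx hF)
    (L.gaussSum K v _ _ ψv μ c G hctx hF) (L.normIndex K v _ _ hd')
    (L.nonNormSum K v _ _ hd') (L.sqOpen K v)
  have hB := L.borelOp K v _ _ ψv μ c G γ η hctx hE
  have hW := L.weylOp K v _ _ ψv μ c G γ η hctx hF hE
  have hS := L.ropSb K v _ _ ψv μ γ η hctx hsb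
  refine ⟨μ, γ, η, fun Φ hlc hcs => ?_⟩
  have hΦ : IsSB Φ := ⟨hlc, hcs⟩
  have hR := L.axReg K v _ _ ψv μ γ η hctx hS Φ hΦ
  refine ⟨Fof _ _ ψv μ γ η Φ, ?_, hR.sb, fof_one_one54 _ _ ψv μ γ η hB Φ hΦ⟩
  exact locAx_of_parts54 _ _ ψv μ c G γ η hctx hE _
    (L.axUnip K v _ _ ψv μ γ η hctx hB Φ hΦ)
    (L.axWeyl K v _ _ ψv μ c G γ η hctx hcov hE hB hW hS Φ hΦ)
    (L.axDiag K v _ _ ψv μ γ η hctx hB Φ hΦ)
    (L.axTor K v _ _ ψv μ γ η Φ) hR

end Fermat.Agent.LT.A2.LF54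

end
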